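import Mathlib

/-!
# Modules with the quadratic relations of an irreducible representation

A torsion-free module on which a group acts with the same quadratic relations as an irreducible
two-dimensional representation is a module over the matrix algebra.

Main result: `exists_algHom`.
-/

set_option autoImplicit false

namespace Fermat.Agent.Carayol.Endgame

open Matrix

variable {T : Type*} [CommRing T] {G : Type*} [Group G] {E : Type*} [Ring E]
  [Algebra T E]

/-- The matrix-valued and module-valued linear extensions of a homomorphism. -/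
theorem lift_mul_single {A : Type*} [Semiring A] [Algebra T A] (f : G →* A)
    (x : MonoidAlgebra T G) (k : G) :
    MonoidAlgebra.lift T A G f (x * MonoidAlgebra.of T G k) =
      MonoidAlgebra.lift T A G f x * f k := by
  rw [map_mul, MonoidAlgebra.lift_of]

theorem lift_surjective (R : G →* Matrix (Fin 2) (Fin 2) T)
    (hspan : Submodule.span T (Set.range R) = ⊤) :
    Function.Surjective (MonoidAlgebra.lift T (Matrix (Fin 2) (Fin 2) T) G R) := by
  intro P
  have hP : P ∈ Submodule.span T (Set.range R) := hspan ▸ Submodule.mem_top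
  induction hP using Submodule.span_induction with
  | mem x hx =>
    obtain ⟨g, rfl⟩ := hx
    exact ⟨MonoidAlgebra.of T G g, MonoidAlgebra.lift_of _ _⟩
  | zero => exact ⟨0, map_zero _⟩
  | add x y _ _ hx hy =>
    obtain ⟨u, rfl⟩ := hx
    obtain ⟨v, rfl⟩ := hy
    exact ⟨u + v, map_add _ _ _⟩
  | smul c x _ hx =>
    obtain ⟨u, rfl⟩ := hx
    exact ⟨c • u, map_smul _ _ _⟩

/-- Some trace of a product with a commutator is non-zero. -/
theorem exists_trace_ne [Nontrivial T] (R : G →* Matrix (Fin 2) (Fin 2) T)
    (hspan : Submodule.span T (Set.range R) = ⊤) :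
    ∃ g g' k, (R (g * g' * k)).trace ≠ (R (g' * g * k)).trace := by
  by_contra hcon
  simp only [ne_eq, not_exists, not_not] at hcon
  have h1 : ∀ g g', R g * R g' = R g' * R g := fun g g' => by
    refine Matrix.ext_iff_trace_mul_right.mpr fun Z => ?_
    have hZ : Z ∈ Submodule.span T (Set.range R) := hspan ▸ Submodule.mem_top
    induction hZ using Submodule.span_induction with
    | mem x hx =>
      obtain ⟨k, rfl⟩ := hx
      simpa only [map_mul] using hcon g g' k
    | zero => simp
    | add x y _ _ hx hy => simp only [mul_add, Matrix.trace_add, hx, hy]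
    | smul c x _ hx => simp only [mul_smul_comm, Matrix.trace_smul, hx]
  have h2 : ∀ g, ∀ Y, R g * Y = Y * R g := fun g Y => by
    have hY : Y ∈ Submodule.span T (Set.range R) := hspan ▸ Submodule.mem_top
    induction hY using Submodule.span_induction with
    | mem x hx =>
      obtain ⟨k, rfl⟩ := hx
      exact h1 g k
    | zero => simp
    | add x y _ _ hx hy => rw [mul_add, add_mul, hx, hy]
    | smul c x _ hx => rw [mul_smul_comm, smul_mul_assoc, hx]
  have h3 : ∀ X Y : Matrix (Fin 2) (Fin 2) T, X * Y = Y * X := fun X Y => by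
    have hX : X ∈ Submodule.span T (Set.range R) := hspan ▸ Submodule.mem_top
    induction hX using Submodule.span_induction with
    | mem x hx =>
      obtain ⟨k, rfl⟩ := hx
      exact h2 k Y
    | zero => simp
    | add x y _ _ hx hy => rw [mul_add, add_mul, hx, hy]
    | smul c x _ hx => rw [mul_smul_comm, smul_mul_assoc, hx]
  have h4 := congrFun (congrFun (h3 (Matrix.single 0 0 1) (Matrix.single 0 1 1)) 0) 1
  simp [Matrix.mul_apply, Fin.sum_univ_two] at h4

variable {R : G →* Matrix (Fin 2) (Fin 2) T} {act : G →* E}
  (hquad : ∀ g, act g * act g - (R g).trace • act g + (R g).det • 1 = 0)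

/-- The conjugate `tr (R g) - act g`. -/
noncomputable def conjOf (R : G →* Matrix (Fin 2) (Fin 2) T) (act : G →* E) (g : G) : E :=
  (R g).trace • 1 - act g

include hquad

theorem conjOf_eq (g : G) : conjOf R act g = (R g).det • act g⁻¹ := by
  have e : conjOf R act g * act g = (R g).det • 1 := by
    rw [conjOf, sub_mul, smul_mul_assoc, one_mul, ← sub_eq_zero, ← neg_eq_zero, ← hquad g]
    abel
  calc conjOf R act g = conjOf R act g * (act g * act g⁻¹) := by
        rw [← map_mul, mul_inv_cancel, map_one, mul_one]
    _ = (R g).det • act g⁻¹ := by rw [← mul_assoc, e, smul_mul_assoc, one_mul]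

theorem conjOf_mul (g g' : G) :
    conjOf R act (g * g') = conjOf R act g' * conjOf R act g := by
  rw [conjOf_eq hquad, conjOf_eq hquad g, conjOf_eq hquad g', map_mul, Matrix.det_mul,
    _root_.mul_inv_rev, map_mul, smul_mul_assoc, mul_smul_comm, smul_smul, mul_comm (R g).det]

/-- A linear relation between the `R g` holds between the `act g`. -/
theorem lift_eq_zero [IsDomain T] (hspan : Submodule.span T (Set.range R) = ⊤)
    (htf : ∀ (t : T) (e : E), t • e = 0 → t = 0 ∨ e = 0) (x : MonoidAlgebra T G)
    (hx : MonoidAlgebra.lift T (Matrix (Fin 2) (Fin 2) T) G R x = 0) :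
    MonoidAlgebra.lift T E G act x = 0 := by
  set X := MonoidAlgebra.lift T E G act x with hX
  set Y := x.coeff.sum fun g c => c • conjOf R act g
  have hkey : ∀ k, X * act k + conjOf R act k * Y = 0 := fun k => by
    have h1 : x.coeff.sum (fun g c => c • (R (g * k)).trace) = 0 := by
      have h0 := congrArg Matrix.trace
        ((lift_mul_single R x k).trans (by rw [hx, zero_mul]))
      rw [lift_mul_single, MonoidAlgebra.lift_apply, Finsupp.sum, Finset.sum_mul,
        Matrix.trace_sum, Matrix.trace_zero] at h0
      simpa only [Finsupp.sum, smul_mul_assoc, Matrix.trace_smul, map_mul] using h0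
    have h2 : x.coeff.sum (fun g c => c • (R (g * k)).trace • (1 : E)) = 0 := by
      have h3 := congrArg (fun t : T => t • (1 : E)) h1
      simpa only [Finsupp.sum, Finset.sum_smul, smul_assoc, zero_smul] using h3
    rw [hX, MonoidAlgebra.lift_apply, Finsupp.sum, Finset.sum_mul, ← h2, Finsupp.sum]
    simp only [Y, Finsupp.sum, Finset.mul_sum, mul_smul_comm, ← conjOf_mul hquad,
      smul_mul_assoc, ← map_mul, ← Finset.sum_add_distrib, ← smul_add]
    simp only [conjOf, add_sub_cancel]
  have hc1 : conjOf R act 1 = 1 := by
    rw [conjOf, map_one, map_one, Matrix.trace_one, Fintype.card_fin, Nat.cast_ofNat, two_smul,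
      add_sub_cancel_right]
  have hY : Y = -X := by
    have := hkey 1
    rw [hc1, map_one, mul_one, one_mul] at this
    exact eq_neg_of_add_eq_zero_right this
  have hR : ∀ k, X * act k = conjOf R act k * X := fun k => by
    have := hkey k
    rwa [hY, mul_neg, ← sub_eq_add_neg, sub_eq_zero] at this
  have hL : ∀ k, act k * X = X * conjOf R act k := fun k => by
    have h1 := hR k
    rw [conjOf, sub_mul, smul_mul_assoc, one_mul] at h1
    rw [conjOf, mul_sub, mul_smul_comm, mul_one, h1]
    abel
  have hswap : ∀ g g', X * act (g * g') = X * act (g' * g) := fun g g' => by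
    rw [map_mul, ← mul_assoc, hR g, mul_assoc, hR g', ← mul_assoc, ← conjOf_mul hquad, ← hR]
  have hswap' : ∀ g g', act (g * g') * X = act (g' * g) * X := fun g g' => by
    rw [map_mul, mul_assoc, hL g', ← mul_assoc, hL g, mul_assoc, ← conjOf_mul hquad, ← hL]
  obtain ⟨g, g', k, hne⟩ := exists_trace_ne R hspan
  have htr : ∀ m, (R m).trace • X = X * act m + act m * X := fun m => by
    rw [hL, conjOf, mul_sub, mul_smul_comm, mul_one]
    abel
  have h5 : ((R (g * g' * k)).trace - (R (g' * g * k)).trace) • X = 0 := by
    rw [sub_smul, htr, htr, sub_eq_zero, map_mul act (g * g') k, map_mul act (g' * g) k,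
      ← mul_assoc, hswap g g', mul_assoc (act (g * g')), hL k, ← mul_assoc (act (g * g')) X,
      hswap' g g', mul_assoc (act (g' * g)) X, ← hL k, ← mul_assoc (act (g' * g)),
      mul_assoc]
  exact (htf _ _ h5).resolve_left (sub_ne_zero.mpr hne)

/-- The module structure over the matrix algebra. -/
theorem exists_algHom [IsDomain T] (hspan : Submodule.span T (Set.range R) = ⊤)
    (htf : ∀ (t : T) (e : E), t • e = 0 → t = 0 ∨ e = 0) :
    ∃ ψ : Matrix (Fin 2) (Fin 2) T →ₐ[T] E, ∀ g, ψ (R g) = act g := by
  let F := MonoidAlgebra.lift T (Matrix (Fin 2) (Fin 2) T) G R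
  let Φ := MonoidAlgebra.lift T E G act
  have hsur := lift_surjective R hspan
  have hwd : ∀ x y, F x = F y → Φ x = Φ y := fun x y h => sub_eq_zero.mp (by
    rw [← map_sub]
    exact lift_eq_zero hquad hspan htf _ (by rw [map_sub, h, sub_self]))
  let s := Function.surjInv hsur
  have hs : ∀ P, F (s P) = P := Function.surjInv_eq hsur
  refine ⟨{ toFun := fun P => Φ (s P)
            map_one' := (hwd _ _ (by rw [hs, map_one])).trans (map_one Φ)
            map_mul' := fun P Q => (hwd _ _ (by rw [hs, map_mul, hs, hs])).trans (map_mul Φ _ _)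
            map_zero' := (hwd _ _ (by rw [hs, map_zero])).trans (map_zero Φ)
            map_add' := fun P Q => (hwd _ _ (by rw [hs, map_add, hs, hs])).trans (map_add Φ _ _)
            commutes' := fun t =>
              (hwd _ _ (by rw [hs, AlgHom.commutes])).trans (Φ.commutes t) }, fun g => ?_⟩
  show Φ (s (R g)) = act g
  rw [hwd (s (R g)) (MonoidAlgebra.of T G g) (by rw [hs]; exact (MonoidAlgebra.lift_of R g).symm)]
  exact MonoidAlgebra.lift_of act g

end Fermat.Agent.Carayol.Endgame
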