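import Fermat.Agent.GalRep.Normalise
import Fermat.Agent.HeckeDatum.Quadratic

/-!
# Quadratic relations spread by density

A quadratic relation at Frobenius elements between two adic representations holds everywhere.

Main result: `quadRel_of_forall_frobenius`.
-/

set_option autoImplicit false

noncomputable section

namespace Fermat.Agent.Carayol.Endgame

open IsLocalRing Fermat.Agent.GalRep

local notation "ℚbar" => AlgebraicClosure ℚ
local notation "Γℚbar" => AlgebraicClosure ℚ ≃ₐ[ℚ] AlgebraicClosure ℚ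

theorem trace_pow_eq_powTrace {B : Type*} [CommRing B] [Nontrivial B]
    (M : Matrix (Fin 2) (Fin 2) B) (j : ℕ) :
    (M ^ j).trace = HeckeDatum.powTrace M.trace M.det j := by
  have hch : M * M = M.trace • M - M.det • 1 := by
    have h := Matrix.aeval_self_charpoly M
    rw [Matrix.charpoly_fin_two] at h
    simp only [map_add, map_sub, map_pow, Polynomial.aeval_X, map_mul, Polynomial.aeval_C,
      Algebra.algebraMap_eq_smul_one, smul_mul_assoc, one_mul] at h
    rw [← sq, eq_sub_iff_add_eq, ← sub_eq_zero, ← h]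
    abel
  induction j using Nat.twoStepInduction with
  | zero => simp [HeckeDatum.powTrace, Matrix.trace_one]
  | one => simp [HeckeDatum.powTrace]
  | more j h0 h1 =>
    rw [pow_succ', pow_succ', ← mul_assoc, hch, sub_mul, smul_mul_assoc, smul_mul_assoc, one_mul,
      ← pow_succ', Matrix.trace_sub, Matrix.trace_smul, Matrix.trace_smul, h0, h1,
      HeckeDatum.powTrace, smul_eq_mul, smul_eq_mul]

/-- The quadratic relation with the trace and determinant of `R₂ σ`. -/
def QuadRel {O : Type*} [CommRing O] {r : Type*} [Fintype r] [DecidableEq r]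
    (X : Matrix r r O) (Y : Matrix (Fin 2) (Fin 2) O) : Prop :=
  X * X - Y.trace • X + Y.det • 1 = 0

theorem QuadRel.pow {O : Type*} [CommRing O] [Nontrivial O] {r : Type*} [Fintype r]
    [DecidableEq r] {X : Matrix r r O} {Y : Matrix (Fin 2) (Fin 2) O} (h : QuadRel X Y) (j : ℕ) :
    QuadRel (X ^ j) (Y ^ j) := by
  have h1 := HeckeDatum.powTrace_quad (algebraMap O (Matrix r r O)) (x := X) (a := Y.trace)
    (c := Y.det) (fun b => Algebra.commutes b X) (by
      simpa [QuadRel, Algebra.algebraMap_eq_smul_one] using h) j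
  rw [← trace_pow_eq_powTrace, ← Matrix.det_pow] at h1
  simpa [QuadRel, Algebra.algebraMap_eq_smul_one] using h1

theorem QuadRel.conj {O : Type*} [CommRing O] {r : Type*} [Fintype r]
    [DecidableEq r] {X g g' : Matrix r r O} {Y G G' : Matrix (Fin 2) (Fin 2) O} (h : QuadRel X Y)
    (hg : g * g' = 1) (hG : G * G' = 1) : QuadRel (g * X * g') (G * Y * G') := by
  have hg' : g' * g = 1 := mul_eq_one_comm.mp hg
  have hG' : G' * G = 1 := mul_eq_one_comm.mp hG
  have ht : (G * Y * G').trace = Y.trace := by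
    rw [Matrix.trace_mul_cycle, hG', one_mul]
  have hd : (G * Y * G').det = Y.det := by
    rw [Matrix.det_mul, Matrix.det_mul, mul_right_comm, ← Matrix.det_mul, hG, Matrix.det_one,
      one_mul]
  rw [QuadRel, ht, hd]
  calc g * X * g' * (g * X * g') - Y.trace • (g * X * g') + Y.det • 1
      = g * (X * X - Y.trace • X + Y.det • 1) * g' := by
        simp only [mul_add, mul_sub, add_mul, sub_mul, mul_smul_comm, smul_mul_assoc, mul_one, hg,
          mul_assoc]
        rw [← mul_assoc g' g, hg', one_mul]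
    _ = 0 := by rw [h, mul_zero, zero_mul]

variable {O : Type} [CommRing O] [IsLocalRing O] [IsHausdorff (maximalIdeal O) O]

/-- **Density.** Two continuous matrix representations satisfying the quadratic relation at
almost all Frobenius elements satisfy it everywhere. -/
theorem quadRel_of_forall_frobenius {r : Type} [Fintype r] [DecidableEq r]
    (R : Γℚbar →* Matrix r r O) (hR : MatrixContinuous R)
    (R₂ : Γℚbar →* Matrix (Fin 2) (Fin 2) O) (hR₂ : MatrixContinuous R₂)
    (S : Set ℕ) (hS : S.Finite)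
    (h : ∀ ℓ : ℕ, ℓ.Prime → ℓ ∉ S → ∀ A : ValuationSubring ℚbar, A.LiesOverPrime ℓ →
      ∀ τ : Γℚbar, A.IsFrobeniusAt τ ℓ → QuadRel (R τ) (R₂ τ)) (σ : Γℚbar) :
    QuadRel (R σ) (R₂ σ) := by
  refine Matrix.ext fun a b => IsHausdorff.haus (I := maximalIdeal O) inferInstance _ fun n => ?_
  rw [SModEq.zero, smul_eq_mul, Ideal.mul_top]
  refine Ideal.pow_le_pow_right (Nat.le_add_right n 1) ?_
  set I := maximalIdeal O ^ (n + 1)
  have : Nontrivial (O ⧸ I) := Ideal.Quotient.nontrivial_iff.2 fun htop =>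
    (IsLocalRing.maximalIdeal.isMaximal O).ne_top
      (top_unique (htop ▸ Ideal.pow_le_self (Nat.succ_ne_zero n)))
  obtain ⟨L₁, hL₁, h1⟩ := hR (n + 1)
  obtain ⟨L₂, hL₂, h2⟩ := hR₂ (n + 1)
  let m : Γℚbar →* Matrix r r (O ⧸ I) := (Ideal.Quotient.mk I).mapMatrix.toMonoidHom.comp R
  let m₂ : Γℚbar →* Matrix (Fin 2) (Fin 2) (O ⧸ I) :=
    (Ideal.Quotient.mk I).mapMatrix.toMonoidHom.comp R₂
  have key : ∀ τ, QuadRel (R τ) (R₂ τ) → QuadRel (m τ) (m₂ τ) := fun τ hτ => by
    have h' := congrArg (Ideal.Quotient.mk I).mapMatrix hτ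
    rw [map_add, map_sub, map_mul, map_zero] at h'
    rw [QuadRel, ← h', show (m₂ τ).trace = Ideal.Quotient.mk I (R₂ τ).trace from
      (AddMonoidHom.map_trace (Ideal.Quotient.mk I).toAddMonoidHom _).symm,
      show (m₂ τ).det = Ideal.Quotient.mk I (R₂ τ).det from (RingHom.map_det _ _).symm]
    ext i j
    simp [m, Matrix.one_apply, apply_ite (Ideal.Quotient.mk I)]
  have : FiniteDimensional ℚ (L₁ ⊔ L₂ : IntermediateField ℚ ℚbar) :=
    IntermediateField.finiteDimensional_sup L₁ L₂
  suffices hσ : QuadRel (m σ) (m₂ σ) by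
    have h' := congrFun (congrFun hσ a) b
    rw [show (m₂ σ).trace = Ideal.Quotient.mk I (R₂ σ).trace from
      (AddMonoidHom.map_trace (Ideal.Quotient.mk I).toAddMonoidHom _).symm,
      show (m₂ σ).det = Ideal.Quotient.mk I (R₂ σ).det from (RingHom.map_det _ _).symm] at h'
    rw [← Ideal.Quotient.eq_zero_iff_mem]
    simpa [m, Matrix.mul_apply, Matrix.one_apply, apply_ite (Ideal.Quotient.mk I)] using h'
  refine Density.forall_of_forall_frobenius (L₁ ⊔ L₂) (fun τ => QuadRel (m τ) (m₂ τ)) ?_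
    (fun g τ hτ => by
      simp only [map_mul]
      exact hτ.conj (by rw [← map_mul, mul_inv_cancel, map_one])
        (by rw [← map_mul, mul_inv_cancel, map_one]))
    (fun τ j hτ => by simp only [map_pow]; exact hτ.pow j) S hS
    (fun ℓ hℓ hℓS A hA τ hτ => key τ (h ℓ hℓ hℓS A hA τ hτ)) σ
  intro τ τ' heq hτ'
  have hfix : ∀ x ∈ L₁ ⊔ L₂, (τ'⁻¹ * τ) x = x := fun x hx => by
    rw [AlgEquiv.mul_apply, heq x hx, ← AlgEquiv.mul_apply, inv_mul_cancel, AlgEquiv.one_apply]
  have e1 : m τ = m τ' :=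
    sub_mem_of_congr I R (h1 _ fun x hx => hfix x ((le_sup_left : L₁ ≤ L₁ ⊔ L₂) hx))
  have e2 : m₂ τ = m₂ τ' :=
    sub_mem_of_congr I R₂ (h2 _ fun x hx => hfix x ((le_sup_right : L₂ ≤ L₁ ⊔ L₂) hx))
  simpa only [e1, e2] using hτ'

end Fermat.Agent.Carayol.Endgame
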