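import Mathlib

/-!
# Unipotent groups of two by two matrices

A group of unipotent two by two matrices over a domain has a common fixed vector.

Main result: `exists_fixed_matrix`.
-/

set_option autoImplicit false

namespace Fermat.Agent.Carayol.Endgame

variable {T : Type*} [CommRing T] [IsDomain T]

/-- Two nilpotent matrices with nilpotent sum multiply to zero. -/
theorem mul_eq_zero_of_trace_mul {N M : Matrix (Fin 2) (Fin 2) T} (hN : N.trace = 0)
    (hN' : N.det = 0) (hM : M.trace = 0) (hM' : M.det = 0) (hNM : (N * M).trace = 0) :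
    N * M = 0 := by
  simp only [Matrix.trace_fin_two] at hN hM
  simp only [Matrix.det_fin_two] at hN' hM'
  simp only [Matrix.trace_fin_two, Matrix.mul_apply, Fin.sum_univ_two] at hNM
  have hd : N 1 1 = -N 0 0 := by linear_combination hN
  have hd' : M 1 1 = -M 0 0 := by linear_combination hM
  rw [hd] at hN' hNM
  rw [hd'] at hM' hNM
  have h : ∀ x : T, x ^ 2 = 0 → x = 0 := fun x hx => pow_eq_zero_iff (two_ne_zero (α := ℕ)) |>.mp hx
  ext i j
  fin_cases i <;> fin_cases j <;>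
    simp [Matrix.mul_apply, Fin.sum_univ_two, hd, hd']
  · refine h _ ?_
    linear_combination (N 0 1 * M 1 0) * hNM + (-N 0 0 ^ 2) * hM' + (M 0 1 * M 1 0) * hN'
  · refine h _ ?_
    linear_combination (-N 0 1 * M 0 1) * hNM + (-N 0 1 ^ 2) * hM' + (-M 0 1 ^ 2) * hN'
  · refine h _ ?_
    linear_combination (-N 1 0 * M 1 0) * hNM + (-N 1 0 ^ 2) * hM' + (-M 1 0 ^ 2) * hN'
  · refine h _ ?_
    linear_combination (N 1 0 * M 0 1) * hNM + (-N 0 0 ^ 2) * hM' + (M 0 1 * M 1 0) * hN'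

variable {G : Type*} [Group G]

/-- **A common fixed vector**, as the columns of a nonzero fixed matrix. -/
theorem exists_fixed_matrix (H : Subgroup G) (R : G →* Matrix (Fin 2) (Fin 2) T)
    (htr : ∀ τ ∈ H, (R τ).trace = 2) (hdet : ∀ τ ∈ H, (R τ).det = 1) :
    ∃ P : Matrix (Fin 2) (Fin 2) T, P ≠ 0 ∧ ∀ τ ∈ H, R τ * P = P := by
  by_cases hall : ∀ τ ∈ H, R τ = 1
  · exact ⟨1, one_ne_zero, fun τ hτ => by rw [hall τ hτ, one_mul]⟩
  push Not at hall
  obtain ⟨σ, hσ, hne⟩ := hall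
  have hN : ∀ τ ∈ H, (R τ - 1).trace = 0 ∧ (R τ - 1).det = 0 := fun τ hτ => by
    have h1 := htr τ hτ
    have h2 := hdet τ hτ
    rw [Matrix.trace_fin_two] at h1
    rw [Matrix.det_fin_two] at h2
    refine ⟨?_, ?_⟩
    · simp [Matrix.trace_fin_two]
      linear_combination h1
    · simp [Matrix.det_fin_two]
      linear_combination h2 - h1
  refine ⟨R σ - 1, sub_ne_zero.mpr hne, fun τ hτ => ?_⟩
  obtain ⟨a1, a2⟩ := hN τ hτ
  obtain ⟨b1, b2⟩ := hN σ hσ
  obtain ⟨c1, -⟩ := hN (τ * σ) (H.mul_mem hτ hσ)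
  have h : (R τ - 1) * (R σ - 1) = 0 := by
    refine mul_eq_zero_of_trace_mul a1 a2 b1 b2 ?_
    rw [show (R τ - 1) * (R σ - 1) = (R (τ * σ) - 1) - (R τ - 1) - (R σ - 1) by
      rw [map_mul]; noncomm_ring, Matrix.trace_sub, Matrix.trace_sub, c1, a1, b1, sub_zero,
      sub_zero]
  rwa [sub_mul, one_mul, sub_eq_zero] at h

end Fermat.Agent.Carayol.Endgame
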