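import Fermat.Agent.Carayol.Endgame.Converse
import Fermat.Agent.Carayol.Endgame.Unipotent
import Fermat.Agent.Carayol.Endgame.Quadratic

/-!
# A vector fixed by a unipotent subgroup

If a two-dimensional representation with full image span is unipotent on a subgroup, a lattice
satisfying its quadratic relations has a vector fixed by the subgroup.

Main result: `exists_fixed_vector`.
-/

set_option autoImplicit false

noncomputable section

namespace Fermat.Agent.Carayol.Endgame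

open IsLocalRing Fermat.Agent.GalRep Matrix

local notation "ℚbar" => AlgebraicClosure ℚ
local notation "Γℚbar" => AlgebraicClosure ℚ ≃ₐ[ℚ] AlgebraicClosure ℚ

variable {O : Type} [CommRing O] [IsDomain O] [IsDiscreteValuationRing O] {d : ℕ}

/-- A saturated sublattice has coordinates and a retraction. -/
theorem exists_coordinates (L : Submodule O (Fin d → O))
    (hsat : ∀ (c : O) (v : Fin d → O), c ≠ 0 → c • v ∈ L → v ∈ L) :
    ∃ (r : ℕ) (P : Matrix (Fin d) (Fin r) O) (Q : Matrix (Fin r) (Fin d) O),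
      Q * P = 1 ∧ (∀ x, P *ᵥ x ∈ L) ∧ ∀ v ∈ L, P *ᵥ (Q *ᵥ v) = v := by
  have : Module.IsTorsionFree O ((Fin d → O) ⧸ L) := by
    constructor
    intro c hc x y hxy
    obtain ⟨x, rfl⟩ := L.mkQ_surjective x
    obtain ⟨y, rfl⟩ := L.mkQ_surjective y
    have hxy' : c • L.mkQ x = c • L.mkQ y := hxy
    rw [← map_smul, ← map_smul, Submodule.mkQ_apply, Submodule.mkQ_apply, Submodule.Quotient.eq,
      ← smul_sub] at hxy'
    exact (Submodule.Quotient.eq L).mpr (hsat c _ hc.ne_zero hxy')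
  have : Module.Free O ((Fin d → O) ⧸ L) := Module.free_of_finite_type_torsion_free'
  obtain ⟨s, hs⟩ := Module.projective_lifting_property L.mkQ LinearMap.id L.mkQ_surjective
  let π : (Fin d → O) →ₗ[O] L := (LinearMap.id - s ∘ₗ L.mkQ).codRestrict L fun v => by
    refine (Submodule.Quotient.mk_eq_zero L).mp ?_
    rw [← Submodule.mkQ_apply]
    have h1 := LinearMap.congr_fun hs (L.mkQ v)
    simp only [LinearMap.comp_apply, LinearMap.id_apply] at h1
    simp only [LinearMap.sub_apply, LinearMap.id_apply, LinearMap.comp_apply, map_sub, h1,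
      sub_self]
  have hπ : ∀ v : L, π v = v := fun v => Subtype.ext (by
    have h1 : L.mkQ (v : Fin d → O) = 0 := (Submodule.Quotient.mk_eq_zero L).mpr v.2
    change (v : Fin d → O) - s (L.mkQ v) = v
    rw [h1, map_zero, sub_zero])
  let b := Module.finBasis O L
  let P := LinearMap.toMatrix' (L.subtype ∘ₗ b.equivFun.symm.toLinearMap)
  let Q := LinearMap.toMatrix' (b.equivFun.toLinearMap ∘ₗ π)
  refine ⟨_, P, Q, ?_, fun x => ?_, fun v hv => ?_⟩
  · rw [← LinearMap.toMatrix'_comp, ← LinearMap.toMatrix'_id]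
    congr 1
    refine LinearMap.ext fun x => ?_
    simp only [LinearMap.comp_apply, Submodule.subtype_apply, hπ, LinearEquiv.coe_coe,
      LinearEquiv.apply_symm_apply, LinearMap.id_apply]
  · rw [LinearMap.toMatrix'_mulVec]
    exact (b.equivFun.symm x).2
  · rw [LinearMap.toMatrix'_mulVec, LinearMap.toMatrix'_mulVec]
    simp only [LinearMap.comp_apply, LinearEquiv.coe_coe, LinearEquiv.symm_apply_apply,
      Submodule.subtype_apply]
    exact congrArg Subtype.val (hπ ⟨v, hv⟩)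

variable [IsHausdorff (maximalIdeal O) O]

/-- **Fixed vector**: a stable lattice with the quadratic relations of a residually irreducible
representation, unipotent on `H`, has a nonzero vector fixed by `H`. -/
theorem exists_fixed_vector (ρ : GaloisRepAdic O) (hirr : ρ.residual.IsAbsolutelyIrreducible)
    (R : Γℚbar →* Matrix (Fin d) (Fin d) O) (hR : MatrixContinuous R)
    (L : Submodule O (Fin d → O)) (hne : ∃ v ∈ L, v ≠ 0)
    (hstab : ∀ σ, ∀ v ∈ L, R σ *ᵥ v ∈ L)
    (hsat : ∀ (c : O) (v : Fin d → O), c ≠ 0 → c • v ∈ L → v ∈ L)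
    (S : Set ℕ) (hS : S.Finite)
    (hfrob : ∀ ℓ : ℕ, ℓ.Prime → ℓ ∉ S → ∀ A : ValuationSubring ℚbar, A.LiesOverPrime ℓ →
      ∀ τ : Γℚbar, A.IsFrobeniusAt τ ℓ → ∀ v ∈ L,
        R τ *ᵥ (R τ *ᵥ v) - LinearMap.trace O ρ.V (ρ.ρ τ) • R τ *ᵥ v
          + LinearMap.det (ρ.ρ τ) • v = 0)
    (H : Subgroup Γℚbar)
    (hH : ∀ τ ∈ H, LinearMap.charpoly (ρ.ρ τ) = (Polynomial.X - 1) ^ 2) :
    ∃ w ∈ L, w ≠ 0 ∧ ∀ τ ∈ H, R τ *ᵥ w = w := by
  classical
  let b₂ := Module.finBasisOfFinrankEq O ρ.V ρ.finrank_eq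
  let e₂ := LinearMap.toMatrixAlgEquiv b₂
  let R₂ : Γℚbar →* Matrix (Fin 2) (Fin 2) O := e₂.toAlgHom.toMonoidHom.comp ρ.ρ
  have hR₂c : MatrixContinuous R₂ := fun n => by
    obtain ⟨F, hF, h⟩ := ρ.isAdicContinuous n
    refine ⟨F, hF, fun σ hσ i j => ?_⟩
    have key : ∀ x ∈ (maximalIdeal O ^ n) • (⊤ : Submodule O ρ.V),
        b₂.repr x i ∈ maximalIdeal O ^ n := fun x hx => by
      refine Submodule.smul_induction_on hx (fun r hr v _ => ?_) (fun u v hu hv => ?_)
      · rw [map_smul, Finsupp.smul_apply, smul_eq_mul]; exact Ideal.mul_mem_right _ _ hr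
      · rw [map_add, Finsupp.add_apply]; exact Ideal.add_mem _ hu hv
    have h1 := key _ (h σ hσ (b₂ j))
    rw [map_sub, Finsupp.sub_apply] at h1
    have h2 : R₂ σ i j = b₂.repr (ρ.ρ σ (b₂ j)) i := LinearMap.toMatrixAlgEquiv_apply b₂ _ i j
    rw [h2, show (1 : Matrix (Fin 2) (Fin 2) O) i j = b₂.repr (b₂ j) i by
      simp [Matrix.one_apply, Finsupp.single_apply, eq_comm]]
    exact h1
  have htr : ∀ σ, (R₂ σ).trace = LinearMap.trace O ρ.V (ρ.ρ σ) := fun σ =>
    (LinearMap.trace_eq_matrix_trace O b₂ (ρ.ρ σ)).symm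
  have hdet : ∀ σ, (R₂ σ).det = LinearMap.det (ρ.ρ σ) := fun σ =>
    LinearMap.det_toMatrix b₂ (ρ.ρ σ)
  have hspan : Submodule.span O (Set.range R₂) = ⊤ := by
    rw [show Set.range R₂ = e₂.toLinearMap '' Set.range ρ.ρ by rw [← Set.range_comp]; rfl,
      Submodule.span_image, Density.adic_span_range_eq_top ρ hirr, Submodule.map_top]
    exact LinearMap.range_eq_top.mpr e₂.surjective
  obtain ⟨r, P, Q, hQP, hPL, hPQ⟩ := exists_coordinates L hsat
  have hPR : ∀ σ, P * (Q * R σ * P) = R σ * P := fun σ =>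
    Matrix.ext_of_mulVec_single fun i => by
      simp only [← Matrix.mulVec_mulVec]
      exact hPQ _ (hstab σ _ (hPL _))
  let R' : Γℚbar →* Matrix (Fin r) (Fin r) O :=
    { toFun := fun σ => Q * R σ * P
      map_one' := by rw [map_one, Matrix.mul_one, hQP]
      map_mul' := fun σ τ => by
        rw [map_mul, show Q * (R σ * R τ) * P = Q * R σ * (R τ * P) by
          simp only [Matrix.mul_assoc], ← hPR τ]
        simp only [Matrix.mul_assoc] }
  have hR'c : MatrixContinuous R' := fun n => by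
    obtain ⟨F, hF, h⟩ := hR n
    refine ⟨F, hF, fun σ hσ i j => ?_⟩
    have h1 : Q * R σ * P - 1 = Q * (R σ - 1) * P := by
      rw [Matrix.mul_sub, Matrix.sub_mul, Matrix.mul_one, hQP]
    change (Q * R σ * P) i j - _ ∈ _
    rw [← Matrix.sub_apply, h1, Matrix.mul_apply]
    refine sum_mem fun k _ => Ideal.mul_mem_right _ _ ?_
    rw [Matrix.mul_apply]
    exact sum_mem fun l _ => Ideal.mul_mem_left _ _ (h σ hσ l k)
  have hR'P : ∀ σ x, P *ᵥ (R' σ *ᵥ x) = R σ *ᵥ (P *ᵥ x) := fun σ x => by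
    rw [Matrix.mulVec_mulVec, Matrix.mulVec_mulVec]
    exact congrArg (· *ᵥ x) (hPR σ)
  have hquad : ∀ σ, QuadRel (R' σ) (R₂ σ) := by
    refine quadRel_of_forall_frobenius R' hR'c R₂ hR₂c S hS fun ℓ hℓ hℓS A hA τ hτ => ?_
    refine Matrix.ext_of_mulVec_single fun i => ?_
    have h1 := congrArg (Q *ᵥ ·) (hfrob ℓ hℓ hℓS A hA τ hτ _ (hPL (Pi.single i 1)))
    simp only [← hR'P, Matrix.mulVec_add, Matrix.mulVec_sub, Matrix.mulVec_smul,
      Matrix.mulVec_mulVec, ← Matrix.mul_assoc, hQP, Matrix.one_mul, Matrix.one_mulVec,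
      Matrix.mulVec_zero] at h1
    rw [Matrix.zero_mulVec, Matrix.add_mulVec, Matrix.sub_mulVec, Matrix.smul_mulVec,
      Matrix.smul_mulVec, Matrix.one_mulVec, htr, hdet]
    exact h1
  have htf : ∀ (t : O) (e : Matrix (Fin r) (Fin r) O), t • e = 0 → t = 0 ∨ e = 0 :=
    fun t e h => smul_eq_zero.mp h
  obtain ⟨ψ, hψ⟩ := exists_algHom hquad hspan htf
  have htwo : ∀ τ ∈ H, (R₂ τ).trace = 2 ∧ (R₂ τ).det = 1 := fun τ hτ => by
    have h1 := hH τ hτ
    rw [← LinearMap.charpoly_toMatrix (ρ.ρ τ) b₂] at h1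
    change (R₂ τ).charpoly = _ at h1
    have hX : ((Polynomial.X - 1) ^ 2 : Polynomial O) =
        Polynomial.X ^ 2 - Polynomial.C 2 * Polynomial.X + Polynomial.C 1 := by
      rw [map_one, map_ofNat]; ring
    rw [Matrix.charpoly_fin_two, hX] at h1
    have e1 := congrArg (fun p => Polynomial.coeff p 1) h1
    have e0 := congrArg (fun p => Polynomial.coeff p 0) h1
    simp [Polynomial.coeff_one] at e1 e0
    exact ⟨e1, e0⟩
  obtain ⟨M, hM0, hM⟩ := exists_fixed_matrix H R₂ (fun τ hτ => (htwo τ hτ).1)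
    fun τ hτ => (htwo τ hτ).2
  obtain ⟨i, j, hij⟩ : ∃ i j, M i j ≠ 0 := by
    by_contra hcon
    push Not at hcon
    exact hM0 (Matrix.ext hcon)
  have hr : Nonempty (Fin r) := by
    by_contra hr
    rw [not_nonempty_iff] at hr
    obtain ⟨v, hv, hv0⟩ := hne
    refine hv0 ?_
    rw [← hPQ v hv, Subsingleton.elim (Q *ᵥ v) 0, Matrix.mulVec_zero]
  have hψM : ψ M ≠ 0 := fun h0 => by
    have h1 : M i j • (1 : Matrix (Fin r) (Fin r) O) = 0 := by
      rw [← map_one ψ, ← map_smul, show M i j • (1 : Matrix (Fin 2) (Fin 2) O) =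
        ∑ k, Matrix.single k i 1 * M * Matrix.single j k 1 by
          ext a c
          fin_cases a <;> fin_cases c <;>
            simp [Matrix.mul_apply, Fin.sum_univ_two, Matrix.single], map_sum]
      refine Finset.sum_eq_zero fun k _ => ?_
      rw [map_mul, map_mul, h0, mul_zero, zero_mul]
    exact (htf _ _ h1).elim hij one_ne_zero
  obtain ⟨a, c, hac⟩ : ∃ a c, ψ M a c ≠ 0 := by
    by_contra hcon
    push Not at hcon
    exact hψM (Matrix.ext hcon)
  refine ⟨P *ᵥ (ψ M *ᵥ Pi.single c 1), hPL _, fun h0 => hac ?_, fun τ hτ => ?_⟩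
  · have h1 := congrArg (Q *ᵥ ·) h0
    simp only [Matrix.mulVec_mulVec, ← Matrix.mul_assoc, hQP, Matrix.one_mul,
      Matrix.mulVec_zero] at h1
    simpa using congrFun h1 a
  · rw [← hR'P, Matrix.mulVec_mulVec _ (R' τ), ← hψ, ← map_mul, hM τ hτ]

end Fermat.Agent.Carayol.Endgame
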