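import Fermat.Agent.GalRep.Datum
import Fermat.Agent.Newform.MultOne
import Fermat.Agent.Hecke.Lattice

/-!
# A newform does not occur at a lower level

The eigenvalues of a newform do not occur in the lattice of a proper divisor of its level.

Main result: `eq_zero_of_eigen`.
-/

set_option autoImplicit false

noncomputable section

namespace Fermat.Agent.Carayol.Endgame

open CuspForm Fermat.Agent.GalRep Matrix

theorem injective_of_integral_charZero {R O : Type*} [CommRing R] [IsDomain R] [CommRing O]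
    [IsDomain O] [CharZero O] (hint : Algebra.IsIntegral ℤ R) (f : R →+* O) :
    Function.Injective f := by
  rw [RingHom.injective_iff_ker_eq_bot]
  refine Ideal.eq_bot_of_comap_eq_bot (R := ℤ) ?_
  refine (Submodule.eq_bot_iff _).mpr fun n hn => ?_
  rwa [Ideal.mem_comap, RingHom.mem_ker, eq_intCast, map_intCast, Int.cast_eq_zero] at hn

theorem exists_eigenvalueHom {T R O : Type*} [CommRing T] [CommRing R] [CommRing O] [IsDomain O]
    {d : ℕ} (H : T →+* Matrix (Fin d) (Fin d) O) (y : Fin d → O) (hy0 : y ≠ 0) (j : R →+* O)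
    (hj : Function.Injective j) (hH : ∀ t, ∃ z, H t *ᵥ y = j z • y) :
    ∃ κ : T →+* R, (∀ t, H t *ᵥ y = j (κ t) • y) ∧
      ∀ {u v : R}, j u • y = j v • y → u = v := by
  choose κ hκ using hH
  have huniq : ∀ {u v : R}, j u • y = j v • y → u = v := fun h =>
    hj ((smul_left_injective O hy0) h)
  exact ⟨{ toFun := κ
           map_one' := huniq ((hκ 1).symm.trans (by simp [Matrix.one_mulVec]))
           map_mul' := fun a b => huniq ((hκ (a * b)).symm.trans (by
             rw [map_mul, ← Matrix.mulVec_mulVec, hκ b, Matrix.mulVec_smul, hκ a, smul_smul,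
               map_mul, mul_comm]))
           map_zero' := huniq ((hκ 0).symm.trans (by simp))
           map_add' := fun a b => huniq ((hκ (a + b)).symm.trans (by
             rw [map_add, Matrix.add_mulVec, hκ a, hκ b, map_add, add_smul])) }, hκ, huniq⟩

/-- **Level drop**: a vector with the eigenvalues of a newform in the lattice of a proper divisor
of its level is zero. -/
theorem eq_zero_of_eigen {M : ℕ} [NeZero M] {g : CuspForm (CongruenceSubgroup.Gamma0 M) 2}
    (hg : g.IsNewform) (S : Finset ℕ) (hMS : ∀ q : ℕ, q.Prime → q ∣ M → q ∈ S)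
    (chig : heckeAlgebra M 2 (↑S : Set ℕ) →+* ℂ)
    (hchig : ∀ (ℓ : ℕ) (hℓ : ℓ.Prime) (hℓM : ¬ ℓ ∣ M) (hℓS : ℓ ∉ (↑S : Set ℕ)),
      chig (heckeAlgebra.T hℓ hℓM hℓS) = ModularFormClass.qCoeff g ℓ)
    {O : Type} [CommRing O] [IsDomain O] [CharZero O] (j : chig.range →+* O)
    {N : ℕ} [NeZero N] (hNM : N ∣ M) (hne : N ≠ M) {d : ℕ}
    (hecke : heckeAlgebra N 2 ∅ →+* Matrix (Fin d) (Fin d) ℤ)
    (y : Fin d → O)
    (hy : ∀ (ℓ : ℕ) (hℓ : ℓ.Prime) (hℓM : ¬ ℓ ∣ M) (hℓS : ℓ ∉ (↑S : Set ℕ)),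
      (hecke (heckeOp N ⟨ℓ, hℓ⟩)).map (Int.cast : ℤ → O) *ᵥ y =
        j (chig.rangeRestrict (heckeAlgebra.T hℓ hℓM hℓS)) • y) :
    y = 0 := by
  classical
  by_contra hy0
  have hint := MFCore.hasIntegralStructure M 2
  have := Hecke.moduleFinite_of_hasIntegralStructure (S := (↑S : Set ℕ)) (by norm_num) hint
  have hintR : Algebra.IsIntegral ℤ chig.range := ⟨fun x => by
    obtain ⟨t, rfl⟩ := chig.rangeRestrict_surjective x
    exact (Algebra.IsIntegral.isIntegral (R := ℤ) t).map chig.rangeRestrict.toIntAlgHom⟩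
  have hj := injective_of_integral_charZero hintR j
  let H : heckeAlgebra N 2 (↑S : Set ℕ) →+* Matrix (Fin d) (Fin d) O :=
    (Int.castRingHom O).mapMatrix.comp
      (hecke.comp (Subalgebra.inclusion (heckeAlgebra_mono (Set.empty_subset _))).toRingHom)
  have hH : ∀ t, ∃ z : chig.range, H t *ᵥ y = j z • y := by
    rintro ⟨t, ht⟩
    induction ht using Algebra.adjoin_induction with
    | mem x hx =>
      rcases hx with ⟨ℓ, hℓ, hℓN, hℓS, rfl⟩ | ⟨q, hqN, hq, hqS, rfl⟩
      · have hℓM : ¬ ℓ ∣ M := fun h => hℓS (Finset.mem_coe.mpr (hMS ℓ hℓ h))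
        refine ⟨chig.rangeRestrict (heckeAlgebra.T hℓ hℓM hℓS), ?_⟩
        have h := hy ℓ hℓ hℓM hℓS
        rw [show heckeOp N ⟨ℓ, hℓ⟩ = heckeAlgebra.T hℓ hℓN (Set.notMem_empty _) from
          dif_neg hℓN] at h
        exact h
      · exact absurd (Finset.mem_coe.mpr (hMS q hq (hqN.trans hNM))) hqS
    | algebraMap r =>
      refine ⟨(r : chig.range), ?_⟩
      rw [show (⟨algebraMap ℤ _ r, Subalgebra.algebraMap_mem _ r⟩ :
        heckeAlgebra N 2 (↑S : Set ℕ)) = (r : _) from eq_intCast (algebraMap ℤ _) r, map_intCast,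
        map_intCast, ← zsmul_one r, Matrix.smul_mulVec, Matrix.one_mulVec, Int.cast_smul_eq_zsmul]
    | add a b ha hb iha ihb =>
      obtain ⟨u, hu⟩ := iha
      obtain ⟨v, hv⟩ := ihb
      exact ⟨u + v, by
        rw [show (⟨a + b, add_mem ha hb⟩ : heckeAlgebra N 2 (↑S : Set ℕ)) = ⟨a, ha⟩ + ⟨b, hb⟩
          from rfl, map_add, map_add, Matrix.add_mulVec, hu, hv, add_smul]⟩
    | mul a b ha hb iha ihb =>
      obtain ⟨u, hu⟩ := iha
      obtain ⟨v, hv⟩ := ihb
      exact ⟨u * v, by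
        rw [show (⟨a * b, mul_mem ha hb⟩ : heckeAlgebra N 2 (↑S : Set ℕ)) = ⟨a, ha⟩ * ⟨b, hb⟩
          from rfl, map_mul, map_mul, ← Matrix.mulVec_mulVec, hv, Matrix.mulVec_smul, hu,
          smul_smul, mul_comm]⟩
  obtain ⟨κh, hκ, huniq⟩ := exists_eigenvalueHom H y hy0 j hj hH
  obtain ⟨v, hv0, hv⟩ := Hecke.exists_eigenvector (by norm_num) (MFCore.hasIntegralStructure N 2)
    (chig.range.subtype.comp κh)
  obtain ⟨f, hf, hfa⟩ := Newform.exists_eigenform_of_eigenvector (↑S : Set ℕ)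
    (fun ℓ => ModularFormClass.qCoeff g ℓ) hv0 fun ℓ hℓ hℓN hℓS => by
      have hℓM : ¬ ℓ ∣ M := fun h => hℓS (Finset.mem_coe.mpr (hMS ℓ hℓ h))
      refine (hv (heckeAlgebra.T hℓ hℓN hℓS)).trans (congrArg (· • v) ?_)
      rw [← hchig ℓ hℓ hℓM hℓS]
      have h := hy ℓ hℓ hℓM hℓS
      rw [show heckeOp N ⟨ℓ, hℓ⟩ = heckeAlgebra.T hℓ hℓN (Set.notMem_empty _) from
        dif_neg hℓN] at h
      have h' := huniq ((hκ (heckeAlgebra.T hℓ hℓN hℓS)).symm.trans h)
      exact congrArg (fun z : chig.range => (z : ℂ)) h'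
  exact Newform.not_agree_outside_finite_of_isNewform hg hNM hne hf S fun ℓ hℓ hℓM hℓS =>
    (hfa ℓ hℓ (fun h => hℓM (h.trans hNM)) (by simpa using hℓS)).symm

end Fermat.Agent.Carayol.Endgame
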