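import Fermat.Agent.Carayol.Endgame.Lattice
import Fermat.Agent.Carayol.Endgame.LevelDrop
import Fermat.Agent.Carayol.Endgame.FixedVector
import Fermat.Agent.Carayol.Descent.Push
import Fermat.Agent.GalRep.Lattice

/-!
# The newform endgame

The newform endgame of Carayol's theorem: a representation attached to a newform of level
`q * M' * q` is not unipotent on inertia at `q`.

Main result: `not_charpoly_eq_of_killsInvariantClasses`.
-/

set_option autoImplicit false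

noncomputable section

namespace Fermat.Agent.Carayol.Endgame

open ModularCurve AlgebraicCurve Matrix IsLocalRing CuspForm
open Fermat.Agent.GalRep Fermat.Agent.Cosets Fermat.Agent.Kummer

local notation "ℚbar" => AlgebraicClosure ℚ
local notation "Γℚbar" => AlgebraicClosure ℚ ≃ₐ[ℚ] AlgebraicClosure ℚ

theorem quadratic_mulVec {O : Type*} [CommRing O] {d : ℕ} {R T : Matrix (Fin d) (Fin d) O}
    {ℓ : ℕ} (h : R * R - T * R + (ℓ : Matrix (Fin d) (Fin d) O) = 0) (v : Fin d → O) :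
    R *ᵥ (R *ᵥ v) - T *ᵥ (R *ᵥ v) + (ℓ : O) • v = 0 := by
  have h' := congrArg (fun M => M *ᵥ v) h
  simpa only [Matrix.add_mulVec, Matrix.sub_mulVec, ← Matrix.mulVec_mulVec, Matrix.zero_mulVec,
    Matrix.natCast_mulVec, Nat.cast_smul_eq_nsmul] using h'

/-- A rank-two quadratic characteristic polynomial gives trace and determinant. -/
theorem trace_det_of_charpoly {O : Type} [CommRing O] [IsLocalRing O] (ρ : GaloisRepAdic O)
    {σ : Γℚbar} {t c : O}
    (h : LinearMap.charpoly (ρ.ρ σ) = Polynomial.X ^ 2 - Polynomial.C t * Polynomial.X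
      + Polynomial.C c) :
    LinearMap.trace O ρ.V (ρ.ρ σ) = t ∧ LinearMap.det (ρ.ρ σ) = c := by
  let b := Module.finBasisOfFinrankEq O ρ.V ρ.finrank_eq
  rw [LinearMap.trace_eq_matrix_trace O b, ← LinearMap.det_toMatrix b]
  rw [← LinearMap.charpoly_toMatrix (ρ.ρ σ) b, Matrix.charpoly_fin_two] at h
  have e1 := congrArg (fun p => Polynomial.coeff p 1) h
  have e0 := congrArg (fun p => Polynomial.coeff p 0) h
  simp [Polynomial.coeff_X_pow] at e1 e0
  exact ⟨e1, by simpa using e0⟩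

variable {lam : ℕ} [Fact lam.Prime] {q M' : ℕ} [NeZero q] [NeZero M']

/-- **Endgame**: if the invariant classes are killed, a representation attached to a newform of
level `q * M' * q` is not unipotent on inertia at `q`. -/
theorem not_charpoly_eq_of_killsInvariantClasses
    {g : CuspForm (CongruenceSubgroup.Gamma0 (q * M' * q)) 2} (hg : g.IsNewform)
    (hq : q.Prime) (S : Finset ℕ) (hlamS : lam ∈ S)
    (hMS : ∀ l : ℕ, l.Prime → l ∣ q * M' * q → l ∈ S)
    (chig : heckeAlgebra (q * M' * q) 2 (↑S : Set ℕ) →+* ℂ)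
    (hchig : ∀ (ℓ : ℕ) (hℓ : ℓ.Prime) (hℓM : ¬ ℓ ∣ q * M' * q) (hℓS : ℓ ∉ (↑S : Set ℕ)),
      chig (heckeAlgebra.T hℓ hℓM hℓS) = ModularFormClass.qCoeff g ℓ)
    (hT : TorsionReduction (q * M' * q) lam) (hT' : TorsionReduction (q * M') lam)
    (O : Type) [CommRing O] [IsDomain O] [IsDiscreteValuationRing O]
    [IsAdicComplete (maximalIdeal O) O] [CharZero O] (hpO : (lam : O) ∈ maximalIdeal O)
    (j : chig.range →+* O) (κO : heckeAlgebra (q * M' * q) 2 ∅ →+* O)
    (hκO : ∀ (ℓ : ℕ) (hℓ : ℓ.Prime) (hℓM : ¬ ℓ ∣ q * M' * q) (hℓS : ℓ ∉ (↑S : Set ℕ)),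
      κO (heckeOp (q * M' * q) ⟨ℓ, hℓ⟩) =
        j (chig.rangeRestrict (heckeAlgebra.T hℓ hℓM hℓS)))
    (ρ : GaloisRepAdic O) (hirr : ρ.residual.IsAbsolutelyIrreducible)
    (hρ : ∀ (ℓ : ℕ) (hℓ : ℓ.Prime), ℓ ∉ S → ∀ A : ValuationSubring ℚbar, A.LiesOverPrime ℓ →
      ∀ σ : Γℚbar, A.IsFrobeniusAt σ ℓ → LinearMap.charpoly (ρ.ρ σ) =
        Polynomial.X ^ 2 - Polynomial.C (κO (heckeOp (q * M' * q) ⟨ℓ, hℓ⟩)) * Polynomial.X
          + Polynomial.C ((ℓ : O)))
    (A : ValuationSubring ℚbar) (hkill : KillsInvariantClasses q M' lam A) :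
    ¬ ∀ τ ∈ A.inertiaSubgroupIn ℚ, LinearMap.charpoly (ρ.ρ τ) = (Polynomial.X - 1) ^ 2 := by
  classical
  intro huni
  have := Hecke.moduleFinite_of_hasIntegralStructure (S := (∅ : Set ℕ)) (by norm_num)
    (MFCore.hasIntegralStructure (q * M' * q) 2)
  have : CharZero (FractionRing O) :=
    charZero_of_injective_algebraMap (IsFractionRing.injective O (FractionRing O))
  let a : Nat.Primes → O := fun l => κO (heckeOp (q * M' * q) l)
  let L := eigenLattice (heckeMat (q * M' * q)) a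
  let R := latticeRepO (q * M' * q) lam O hpO
  have hne : ∃ v ∈ L, v ≠ 0 :=
    exists_ne_zero_mem_eigenLattice (FractionRing O) (heckeMat (q * M' * q)) a
      ((jZeroDatum (q * M' * q) lam hT).finrank_eigenspace_bounds
        ((algebraMap O (FractionRing O)).comp κO)).1
  have hstab : ∀ σ, ∀ v ∈ L, R σ *ᵥ v ∈ L := fun σ v hv l => by
    rw [Matrix.mulVec_mulVec, ← (latticeRepO_commute (q * M' * q) lam O hpO σ l).eq,
      ← Matrix.mulVec_mulVec, hv l, Matrix.mulVec_smul]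
  have hsat : ∀ (c : O) (v : Fin (homRank (q * M' * q)) → O), c ≠ 0 → c • v ∈ L → v ∈ L :=
    fun c v hc hv l => smul_right_injective (Fin (homRank (q * M' * q)) → O) hc
      ((Matrix.mulVec_smul _ c v).symm.trans ((hv l).trans (smul_comm _ _ _)))
  have hnot : ∀ ℓ : ℕ, ℓ.Prime → ℓ ∉ S →
      ¬ ℓ ∣ q * M' * q * lam ∧ ¬ ℓ ∣ q * M' * lam ∧ ¬ ℓ ∣ q * M' * q := by
    intro ℓ hℓ hℓS
    have h1 : ¬ ℓ ∣ q * M' * q := fun h => hℓS (hMS ℓ hℓ h)
    have h2 : ¬ ℓ ∣ lam := fun h =>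
      hℓS ((Nat.prime_dvd_prime_iff_eq hℓ Fact.out).mp h ▸ hlamS)
    exact ⟨fun h => (hℓ.dvd_mul.mp h).elim h1 h2,
      fun h => (hℓ.dvd_mul.mp h).elim (fun h' => h1 (h'.mul_right q)) h2, h1⟩
  have hquad : ∀ ℓ (hℓ : ℓ.Prime), ℓ ∉ S → ∀ B : ValuationSubring ℚbar, B.LiesOverPrime ℓ →
      ∀ τ : Γℚbar, B.IsFrobeniusAt τ ℓ → ∀ v ∈ L,
        R τ *ᵥ (R τ *ᵥ v) - a ⟨ℓ, hℓ⟩ • R τ *ᵥ v + (ℓ : O) • v = 0 := by
    intro ℓ hℓ hℓS B hB τ hτ v hv
    have h := quadratic_mulVec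
      (latticeRepO_quadratic (q * M' * q) lam O hpO hT ℓ hℓ (hnot ℓ hℓ hℓS).1 B hB τ hτ) v
    rwa [hstab τ v hv ⟨ℓ, hℓ⟩] at h
  obtain ⟨w, hwL, hw0, hwfix⟩ := exists_fixed_vector ρ hirr R
    (latticeRepO_continuous (q * M' * q) lam O hpO) L hne hstab hsat (↑S : Set ℕ) S.finite_toSet
    (fun ℓ hℓ hℓS B hB τ hτ v hv => by
      have hℓS' : ℓ ∉ S := by simpa using hℓS
      obtain ⟨htr, hdet⟩ := trace_det_of_charpoly ρ (hρ ℓ hℓ hℓS' B hB τ hτ)
      rw [htr, hdet]
      exact hquad ℓ hℓ hℓS' B hB τ hτ v hv) (A.inertiaSubgroupIn ℚ) huni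
  -- the push-forwards kill the fixed vector
  have hpush : ∀ i : Fin 2, ∀ P : Matrix (Fin (homRank (q * M')))
      (Fin (homRank (q * M' * q))) ℤ_[lam],
      (∀ σ, P * latticeRep (q * M' * q) lam σ = latticeRep (q * M') lam σ * P) →
      P.map (padicHom lam O hpO) *ᵥ w = 0 := by
    intro i P hP
    set PO := P.map (padicHom lam O hpO) with hPO
    let R' := latticeRepO (q * M') lam O hpO
    have hcomm : ∀ σ v, PO *ᵥ (R σ *ᵥ v) = R' σ *ᵥ (PO *ᵥ v) := fun σ v => by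
      rw [Matrix.mulVec_mulVec, Matrix.mulVec_mulVec]
      refine congrArg (· *ᵥ v) ?_
      simp only [R, R', latticeRepO_apply, hPO, ← Matrix.map_mul, hP σ]
    refine eq_zero_of_eigen hg S hMS chig hchig j (dvd_mul_right _ _)
      (fun h => hq.one_lt.ne' (Nat.eq_of_mul_eq_mul_left
        (Nat.pos_of_neZero (q * M')) (h.symm.trans (mul_one _).symm))) ?_ _ ?_
    · exact latticeMat (q * M')
    intro ℓ hℓ hℓM hℓS
    have hℓS' : ℓ ∉ S := by simpa using hℓS
    erw [latticeMat_heckeOp (q * M') ⟨ℓ, hℓ⟩]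
    rw [← hκO ℓ hℓ hℓM hℓS]
    change _ = a ⟨ℓ, hℓ⟩ • _
    obtain ⟨B, hB⟩ := Gal.exists_liesOverPrime (L := ℚbar) hℓ
    obtain ⟨τ, hτ⟩ := Gal.exists_isFrobeniusAt hℓ hB
    -- compare the two quadratics at `τ⁻¹ w`
    set v := R τ⁻¹ *ᵥ w with hv
    have hvL : v ∈ L := hstab _ w hwL
    have hτv : R τ *ᵥ v = w := by
      rw [hv, Matrix.mulVec_mulVec, ← map_mul, mul_inv_cancel, map_one, Matrix.one_mulVec]
    have h1 := congrArg (PO *ᵥ ·) (hquad ℓ hℓ hℓS' B hB τ hτ v hvL)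
    simp only [Matrix.mulVec_add, Matrix.mulVec_sub, Matrix.mulVec_smul, Matrix.mulVec_zero,
      hcomm] at h1
    have h2 := quadratic_mulVec
      (latticeRepO_quadratic (q * M') lam O hpO hT' ℓ hℓ (hnot ℓ hℓ hℓS').2.1 B hB τ hτ) (PO *ᵥ v)
    rw [← hcomm τ v, hτv] at h1 h2
    rw [← h2] at h1
    exact (sub_right_inj.mp (add_right_cancel h1)).symm
  -- the torsion points given by functionals
  obtain ⟨D, hD0, hD⟩ := hkill
  choose P hPR hPn using fun i : Fin 2 => exists_push_matrix lam (N := q * M') (q * M' * q)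
    (levelPush q M' i) (levelPush_smul q M' i)
  refine hw0 (funext fun c => ?_)
  have hDne : (D : O) ≠ 0 := Nat.cast_ne_zero.mpr hD0.ne'
  refine (mul_eq_zero.mp (?_ : (D : O) * w c = 0)).resolve_left hDne
  refine eq_zero_of_functionals hpO _ fun n φ => ?_
  obtain ⟨x, hx⟩ := (torsCoord (q * M' * q) (lam ^ n)).surjective fun k => φ (w k)
  have hzero : D • (x : JZero (q * M' * q)) = 0 := by
    refine hD n x (nsmul_eq_zero_of_mem _ _ x.2) (fun σ hσ => ?_) fun i => ?_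
    · rw [← JZero.coe_torsionGaloisRep_apply (q * M' * q) σ x]
      refine congrArg Subtype.val ((torsCoord (q * M' * q) (lam ^ n)).injective ?_)
      rw [← torsRho_mulVec, hx, ← latticeRep_toZModPow, ← functional_mulVec (padicHom lam O hpO) φ]
      funext k
      exact congrArg φ (congrFun (hwfix σ hσ) k)
    · have hy := map_mem_tors (N := q * M') (q * M' * q) (levelPush q M' i) x.2
      have h1 := torsMatrix_mulVec (q * M' * q) (levelPush q M' i) (lam ^ n) x ⟨_, hy⟩ rfl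
      rw [hx, ← hPn i n, ← functional_mulVec (padicHom lam O hpO) φ,
        hpush i (P i) (hPR i)] at h1
      have h2 : (⟨_, hy⟩ : Tors (q * M') (lam ^ n)) = 0 :=
        (torsCoord (q * M') (lam ^ n)).injective (by
          rw [← h1, map_zero]
          funext k
          simp)
      exact congrArg Subtype.val h2
  have h3 : torsCoord (q * M' * q) (lam ^ n) (D • x) = 0 := by
    rw [show D • x = 0 from Subtype.ext hzero, map_zero]
  rw [← nsmul_eq_mul, map_nsmul]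
  rw [map_nsmul, hx] at h3
  exact congrFun h3 c

end Fermat.Agent.Carayol.Endgame
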