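import Fermat.Agent.GalRep.Coeff

/-!
# Functionals on adic rings

`p`-adic lattices and their additive functionals modulo `pⁿ`.

Main result: `eq_zero_of_functionals`.
-/

set_option autoImplicit false

noncomputable section

namespace Fermat.Agent.Carayol.Endgame

open IsLocalRing Fermat.Agent.GalRep

variable {p : ℕ} [Fact p.Prime] {O : Type} [CommRing O]

/-- A compatible family of rectangular matrices modulo `pⁿ` has a limit. -/
theorem exists_matrix_limit {a b : Type*} (P : ∀ n : ℕ, Matrix a b (ZMod (p ^ n)))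
    (hP : ∀ n, (P (n + 1)).map (ZMod.castHom (pow_dvd_pow p n.le_succ) (ZMod (p ^ n))) = P n) :
    ∃ Q : Matrix a b ℤ_[p], ∀ n, Q.map (PadicInt.toZModPow n) = P n := by
  choose x hx using fun i j => exists_toZModPow_eq (fun n => P n i j)
    (fun n => congrFun (congrFun (hP n) i) j)
  exact ⟨Matrix.of x, fun n => Matrix.ext fun i j => hx i j n⟩

theorem padic_matrix_ext {a b : Type*} {A B : Matrix a b ℤ_[p]}
    (h : ∀ n, A.map (PadicInt.toZModPow n) = B.map (PadicInt.toZModPow n)) : A = B :=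
  Matrix.ext fun i j => PadicInt.ext_of_toZModPow.mp fun n => congrFun (congrFun (h n) i) j

theorem addHom_padic_mul (f : ℤ_[p] →+* O) {n : ℕ} (φ : O →+ ZMod (p ^ n)) (z : ℤ_[p]) (o : O) :
    φ (f z * o) = PadicInt.toZModPow n z * φ o := by
  have hz : z - (((PadicInt.toZModPow n z).val : ℕ) : ℤ_[p]) ∈
      RingHom.ker (PadicInt.toZModPow (p := p) n) := by
    rw [RingHom.mem_ker, map_sub, map_natCast, ZMod.natCast_zmod_val, sub_self]
  rw [PadicInt.ker_toZModPow, Ideal.mem_span_singleton'] at hz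
  obtain ⟨u, hu⟩ := hz
  have h1 : f z * o = (p ^ n) • (f u * o) + (PadicInt.toZModPow n z).val • o := by
    conv_lhs => rw [eq_add_of_sub_eq hu.symm, map_add f, map_mul f, map_pow f, map_natCast f,
      map_natCast f]
    simp only [nsmul_eq_mul, Nat.cast_pow]
    ring
  rw [h1, map_add, map_nsmul, map_nsmul, nsmul_eq_mul, ZMod.natCast_self, zero_mul, zero_add,
    nsmul_eq_mul, ZMod.natCast_zmod_val]

theorem functional_mulVec (f : ℤ_[p] →+* O) {n : ℕ} (φ : O →+ ZMod (p ^ n)) {a b : Type*}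
    [Fintype b] (M : Matrix a b ℤ_[p]) (w : b → O) :
    (fun i => φ ((M.map f).mulVec w i)) =
      (M.map (PadicInt.toZModPow n)).mulVec fun j => φ (w j) := by
  funext i
  simp [Matrix.mulVec, dotProduct, map_sum, addHom_padic_mul]

/-- An element killed by all functionals modulo `N` is a multiple of `N`. -/
theorem exists_mul_of_functionals {N : ℕ} [NeZero N] (a : O)
    (h : ∀ φ : O →+ ZMod N, φ a = 0) : ∃ b, a = (N : O) * b := by
  let I : AddSubgroup O := (AddMonoidHom.mulLeft (N : O)).range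
  suffices ha : (QuotientAddGroup.mk' I a) = 0 by
    obtain ⟨b, hb⟩ := (QuotientAddGroup.eq_zero_iff a).mp ha
    exact ⟨b, hb.symm⟩
  refine CharacterModule.eq_zero_of_character_apply fun c => ?_
  let g : ZMod N →+ AddCircle (1 : ℚ) :=
    ZMod.lift N ⟨(QuotientAddGroup.mk' _).comp
      ((AddMonoidHom.mulRight ((N : ℚ)⁻¹)).comp (Int.castAddHom ℚ)), by
      have h1 : ((N : ℤ) : ℚ) * (N : ℚ)⁻¹ = 1 := by
        rw [Int.cast_natCast, mul_inv_cancel₀ (NeZero.ne _)]
      show (((N : ℤ) : ℚ) * (N : ℚ)⁻¹ : AddCircle (1 : ℚ)) = 0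
      rw [h1]
      exact AddCircle.coe_period (1 : ℚ)⟩
  have hg : ∀ k : ℤ, g k = (((k : ℚ) * (N : ℚ)⁻¹ : ℚ) : AddCircle (1 : ℚ)) := fun k =>
    ZMod.lift_coe N _ k
  have ginj : Function.Injective g := by
    rw [injective_iff_map_eq_zero]
    intro x hx
    obtain ⟨k, rfl⟩ := ZMod.intCast_surjective x
    rw [hg, AddCircle.coe_eq_zero_iff] at hx
    obtain ⟨m, hm⟩ := hx
    rw [ZMod.intCast_zmod_eq_zero_iff_dvd]
    refine ⟨m, ?_⟩
    rw [zsmul_eq_mul, mul_one] at hm
    have hN : (N : ℚ) ≠ 0 := NeZero.ne _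
    field_simp at hm
    have h' : ((k : ℤ) : ℚ) = (((N : ℤ) * m : ℤ) : ℚ) := by push_cast; linarith
    exact_mod_cast h'
  have himg : ∀ o, ∃ z, g z = c (QuotientAddGroup.mk' I o) := fun o => by
    obtain ⟨r, hr⟩ := QuotientAddGroup.mk'_surjective _ (c (QuotientAddGroup.mk' I o))
    have h0 : N • c (QuotientAddGroup.mk' I o) = 0 := by
      rw [← map_nsmul, ← map_nsmul, show QuotientAddGroup.mk' I (N • o) = 0 from
        (QuotientAddGroup.eq_zero_iff _).mpr ⟨o, (nsmul_eq_mul N o).symm⟩, map_zero]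
    rw [← hr, ← map_nsmul, QuotientAddGroup.mk'_apply, AddCircle.coe_eq_zero_iff] at h0
    obtain ⟨m, hm⟩ := h0
    refine ⟨(m : ZMod N), ?_⟩
    rw [hg, ← hr]
    congr 1
    have hN : (N : ℚ) ≠ 0 := NeZero.ne _
    rw [zsmul_eq_mul, mul_one, nsmul_eq_mul] at hm
    field_simp
    linarith
  choose z hz using himg
  let φ : O →+ ZMod N := AddMonoidHom.mk' z fun x y => ginj (by
    rw [map_add, hz, hz, hz, map_add, map_add])
  have h2 : c (QuotientAddGroup.mk' I a) = g (φ a) := (hz a).symm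
  rw [h2, h φ, map_zero]

/-- The functionals modulo all powers of `p` separate elements. -/
theorem eq_zero_of_functionals [IsLocalRing O] [IsHausdorff (maximalIdeal O) O]
    (hp : (p : O) ∈ maximalIdeal O) (a : O)
    (h : ∀ (n : ℕ) (φ : O →+ ZMod (p ^ n)), φ a = 0) : a = 0 :=
  IsHausdorff.haus (I := maximalIdeal O) inferInstance a fun n => by
    obtain ⟨b, hb⟩ := exists_mul_of_functionals a (h n)
    rw [SModEq.zero, smul_eq_mul, Ideal.mul_top, hb, Nat.cast_pow]
    exact Ideal.mul_mem_right _ _ (Ideal.pow_mem_pow hp n)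

end Fermat.Agent.Carayol.Endgame
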