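import Fermat.Agent.GalRep.DatumJZero
import Fermat.Agent.GalRep.Normalise
import Fermat.Agent.Carayol.Endgame.Padic

/-!
# The Tate lattice of `J₀(N)` in coordinates

The `p`-adic Tate lattice of `J₀(N)` in coordinates, and matrices of homomorphisms between two of
them.

Main result: `exists_push_matrix`.
-/

set_option autoImplicit false

noncomputable section

namespace Fermat.Agent.Carayol.Endgame

open ModularCurve AlgebraicCurve Matrix IsLocalRing
open Fermat.Agent.GalRep Fermat.Agent.Cosets Fermat.Agent.Kummer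

local notation "ℚbar" => AlgebraicClosure ℚ
local notation "Γℚbar" => AlgebraicClosure ℚ ≃ₐ[ℚ] AlgebraicClosure ℚ

variable (N : ℕ) [NeZero N] (p : ℕ) [Fact p.Prime]

/-- The Galois action on the Tate lattice. -/
def latticeRep : Γℚbar →* Matrix (Fin (homRank N)) (Fin (homRank N)) ℤ_[p] :=
  (exists_padic_lift (fun n => torsRho N (p ^ n)) (torsRho_cast N p)).choose

theorem latticeRep_toZModPow (n : ℕ) (σ : Γℚbar) :
    (latticeRep N p σ).map (PadicInt.toZModPow n) = torsRho N (p ^ n) σ :=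
  (exists_padic_lift (fun n => torsRho N (p ^ n)) (torsRho_cast N p)).choose_spec n σ

variable (O : Type) [CommRing O] [IsLocalRing O] [IsAdicComplete (maximalIdeal O) O]
  (hpO : (p : O) ∈ maximalIdeal O)

/-- The action on the lattice with coefficients in `O`. -/
def latticeRepO : Γℚbar →* Matrix (Fin (homRank N)) (Fin (homRank N)) O :=
  (padicHom p O hpO).mapMatrix.toMonoidHom.comp (latticeRep N p)

theorem latticeRepO_apply (σ : Γℚbar) :
    latticeRepO N p O hpO σ = (latticeRep N p σ).map (padicHom p O hpO) := rfl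

theorem latticeRepO_continuous : MatrixContinuous (latticeRepO N p O hpO) := fun n => by
  obtain ⟨F, hF, h⟩ := torsRho_finiteLevel N (p ^ n)
  refine ⟨F, hF, fun σ hσ i j => ?_⟩
  rw [← map_one (padicHom p O hpO).mapMatrix, RingHom.mapMatrix_apply, Matrix.map_apply,
    latticeRepO_apply, Matrix.map_apply, ← map_sub]
  refine padicHom_mem_pow p O hpO ?_
  have h1 := congrFun (congrFun (latticeRep_toZModPow N p n σ) i) j
  rw [Matrix.map_apply, h σ hσ] at h1
  rw [map_sub, h1, Matrix.one_apply, Matrix.one_apply, apply_ite (PadicInt.toZModPow n)]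
  simp

theorem intCast_map_toZModPow {a b : Type*} (M : Matrix a b ℤ) (n : ℕ) :
    (M.map (Int.cast : ℤ → ℤ_[p])).map (PadicInt.toZModPow n) =
      M.map (Int.cast : ℤ → ZMod (p ^ n)) :=
  Matrix.ext fun _ _ => map_intCast (PadicInt.toZModPow n) _

theorem intCast_map_padicHom {a b : Type*} (M : Matrix a b ℤ) :
    (M.map (Int.cast : ℤ → ℤ_[p])).map (padicHom p O hpO) = M.map (Int.cast : ℤ → O) :=
  Matrix.ext fun _ _ => map_intCast (padicHom p O hpO) _

theorem latticeRepO_commute (σ : Γℚbar) (q : Nat.Primes) :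
    Commute (latticeRepO N p O hpO σ) ((heckeMat N q).map (Int.cast : ℤ → O)) := by
  rw [← intCast_map_padicHom p O hpO, latticeRepO_apply]
  refine Commute.map (f := (padicHom p O hpO).mapMatrix) (padic_matrix_ext fun n => ?_)
  rw [Matrix.map_mul, Matrix.map_mul, latticeRep_toZModPow, intCast_map_toZModPow]
  exact torsRho_commute N (p ^ n) σ q

theorem latticeRepO_quadratic (h : TorsionReduction N p) (ℓ : ℕ) (hℓ : ℓ.Prime)
    (hℓN : ¬ ℓ ∣ N * p) (A : ValuationSubring ℚbar) (hA : A.LiesOverPrime ℓ) (σ : Γℚbar)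
    (hσ : A.IsFrobeniusAt σ ℓ) :
    latticeRepO N p O hpO σ * latticeRepO N p O hpO σ
      - (heckeMat N ⟨ℓ, hℓ⟩).map (Int.cast : ℤ → O) * latticeRepO N p O hpO σ
      + (ℓ : Matrix (Fin (homRank N)) (Fin (homRank N)) O) = 0 := by
  have h0 : latticeRep N p σ * latticeRep N p σ
      - (heckeMat N ⟨ℓ, hℓ⟩).map (Int.cast : ℤ → ℤ_[p]) * latticeRep N p σ
      + (ℓ : Matrix (Fin (homRank N)) (Fin (homRank N)) ℤ_[p]) = 0 := padic_matrix_ext fun n => by
    have h1 := torsRho_quadratic N (p ^ n) σ ⟨ℓ, hℓ⟩ ℓ fun x hx =>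
      (h ℓ hℓ hℓN A hA).2 σ hσ x ⟨n, hx⟩
    rw [← intCast_map_toZModPow p, ← latticeRep_toZModPow N p n] at h1
    simp only [← RingHom.mapMatrix_apply] at h1 ⊢
    rw [map_add, map_sub, map_mul, map_mul, map_natCast, map_zero]
    exact h1
  have h2 := congrArg (padicHom p O hpO).mapMatrix h0
  rw [map_add, map_sub, map_mul, map_mul, map_natCast, map_zero] at h2
  simp only [RingHom.mapMatrix_apply, intCast_map_padicHom] at h2
  exact h2

variable {N p}
variable (M : ℕ) [NeZero M]

omit [NeZero N] [NeZero M] in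
theorem map_mem_tors (f : JZero M →+ JZero N) {n : ℕ} {x : JZero M} (hx : x ∈ Tors M n) :
    f x ∈ Tors N n := by
  rw [Pic0.mem_torsion] at hx ⊢
  rw [← map_zsmul, hx, map_zero]

/-- The matrix of a homomorphism on `n`-torsion. -/
def torsMatrix (f : JZero M →+ JZero N) (n : ℕ) [NeZero n] :
    Matrix (Fin (homRank N)) (Fin (homRank M)) (ZMod n) :=
  let g : Tors M n →+ Tors N n :=
    AddMonoidHom.mk' (fun x => ⟨f (x : JZero M), map_mem_tors M f x.2⟩) fun x y =>
      Subtype.ext (map_add f (x : JZero M) (y : JZero M))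
  LinearMap.toMatrix' ((torsCoord N n).toLinearMap ∘ₗ g.toZModLinearMap n ∘ₗ
    (torsCoord M n).symm.toLinearMap)

theorem torsMatrix_mulVec (f : JZero M →+ JZero N) (n : ℕ) [NeZero n] (x : Tors M n)
    (y : Tors N n) (hy : (y : JZero N) = f (x : JZero M)) :
    torsMatrix M f n *ᵥ torsCoord M n x = torsCoord N n y := by
  rw [torsMatrix, LinearMap.toMatrix'_mulVec]
  simp only [LinearMap.comp_apply, LinearEquiv.coe_coe, LinearEquiv.symm_apply_apply]
  exact congrArg _ (Subtype.ext hy.symm)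

theorem torsMatrix_cast (f : JZero M →+ JZero N) (n : ℕ) :
    (torsMatrix M f (p ^ (n + 1))).map (ZMod.castHom (pow_dvd_pow p n.le_succ) (ZMod (p ^ n))) =
      torsMatrix M f (p ^ n) := by
  set c := ZMod.castHom (pow_dvd_pow p n.le_succ) (ZMod (p ^ n)) with hc
  refine Matrix.ext_of_mulVec_single fun i => ?_
  obtain ⟨x, hx⟩ := (torsCoord M (p ^ (n + 1))).surjective (Pi.single i 1)
  have hmem : p • (x : JZero M) ∈ Tors M (p ^ n) := by
    have h := Pic0.mem_torsion.mp x.2
    rw [natCast_zsmul] at h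
    rw [Pic0.mem_torsion, natCast_zsmul, smul_smul, ← pow_succ]
    exact h
  let x' : Tors M (p ^ n) := ⟨p • (x : JZero M), hmem⟩
  let y : Tors N (p ^ (n + 1)) := ⟨f x, map_mem_tors M f x.2⟩
  let y' : Tors N (p ^ n) := ⟨f (p • (x : JZero M)), map_mem_tors M f hmem⟩
  have hx' : torsCoord M (p ^ n) x' = c ∘ torsCoord M (p ^ (n + 1)) x :=
    torsCoord_reduction M (pow_succ p n).symm x x' rfl
  have hy' : torsCoord N (p ^ n) y' = c ∘ torsCoord N (p ^ (n + 1)) y :=
    torsCoord_reduction N (pow_succ p n).symm y y' (map_nsmul f p (x : JZero M))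
  have hsingle : (Pi.single i 1 : Fin (homRank M) → ZMod (p ^ n)) = c ∘ Pi.single i 1 :=
    funext fun j => by
      rcases eq_or_ne j i with rfl | hj
      · simp
      · simp [hj]
  rw [hsingle, ← hx, ← hx', torsMatrix_mulVec M f (p ^ n) x' y' rfl, hy',
    ← torsMatrix_mulVec M f (p ^ (n + 1)) x y rfl, hx']
  funext j
  exact (RingHom.map_mulVec c _ _ j).symm

variable (p) in
/-- An equivariant homomorphism gives an equivariant matrix between the Tate lattices. -/
theorem exists_push_matrix (f : JZero M →+ JZero N)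
    (hf : ∀ (σ : Γℚbar) x, f (σ • x) = σ • f x) :
    ∃ P : Matrix (Fin (homRank N)) (Fin (homRank M)) ℤ_[p],
      (∀ σ, P * latticeRep M p σ = latticeRep N p σ * P) ∧
      ∀ n, P.map (PadicInt.toZModPow n) = torsMatrix M f (p ^ n) := by
  obtain ⟨P, hP⟩ := exists_matrix_limit (fun n => torsMatrix M f (p ^ n)) (torsMatrix_cast M f)
  refine ⟨P, fun σ => padic_matrix_ext fun n => ?_, hP⟩
  rw [Matrix.map_mul, Matrix.map_mul, hP, latticeRep_toZModPow, latticeRep_toZModPow]
  refine Matrix.ext_of_mulVec_single fun i => ?_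
  obtain ⟨x, hx⟩ := (torsCoord M (p ^ n)).surjective (Pi.single i 1)
  rw [← hx, ← Matrix.mulVec_mulVec, ← Matrix.mulVec_mulVec, torsRho_mulVec,
    torsMatrix_mulVec M f (p ^ n) x ⟨f x, map_mem_tors M f x.2⟩ rfl, torsRho_mulVec]
  refine torsMatrix_mulVec M f (p ^ n) _ _ ?_
  rw [JZero.coe_torsionGaloisRep_apply, JZero.coe_torsionGaloisRep_apply]
  exact (hf σ _).symm

end Fermat.Agent.Carayol.Endgame
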